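import Fermat.Agent.LevelRaisingPrime.Unipotent
import Fermat.Agent.Chebotarev.Basic
import Fermat.Agent.ConductorLevel.Compare
import Fermat.Agent.ECTorsion.Galois
import Fermat.Agent.VariableChangePoints.Basic
import Fermat.Prelude.Def_FLTPrelim_ModularRep
import Fermat.Prelude.Def_EllipticCurve_FrobeniusTrace

/-!
# Primes `ℓ ≡ 1 (mod p M)` with `a_ℓ ≢ 2 (mod p)`

If `E[p]` is irreducible, `p` is odd and Frobenius has the expected trace and determinant, such a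
prime exists: otherwise the elements fixing `μ_{pM}` act unipotently, hence trivially, so the
image is abelian and complex conjugation is a central involution of determinant `-1`.
-/

set_option autoImplicit false

noncomputable section

open Polynomial WeierstrassCurve WeierstrassCurve.Affine WeierstrassCurve.Affine.Point
open scoped WeierstrassCurve.Affine

namespace Fermat.Agent.LevelRaisingPrime

local notation "Qbar" => AlgebraicClosure ℚ
local notation "Γℚ" => (AlgebraicClosure ℚ ≃ₐ[ℚ] AlgebraicClosure ℚ)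

/-- The action on the `p`-torsion of an integral model. -/
abbrev modRep (W : WeierstrassCurve ℤ) (p : ℕ) :=
  galoisRepModuleEnd (K := AlgebraicClosure ℚ) ℚ (W.map (Int.castRingHom ℚ)) p

/-- Frobenius at good primes other than `p` has trace `a_ℓ` and determinant `ℓ` on `E[p]`. -/
def FrobeniusTraceDet (W : WeierstrassCurve ℤ) (p : ℕ) : Prop :=
  ∀ ℓ : ℕ, ℓ.Prime → ℓ ≠ p → W.IsGoodPrimeFor ℓ → ∀ A : ValuationSubring Qbar,
    A.LiesOverPrime ℓ → ∀ φ : Γℚ, A.IsFrobeniusAt φ ℓ →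
      LinearMap.trace (ZMod p) _ (modRep W p φ) = (W.apOfModel ℓ : ZMod p) ∧
        LinearMap.det (modRep W p φ) = (ℓ : ZMod p)

/-- Frobenius density in the shape used by the density lemmas. -/
theorem frobeniusPowDense : HeckeDatum.FrobeniusPowDense := fun L hL σ S => by
  have := hL
  obtain ⟨ℓ, hℓ, hS, -, A, hA, φ, hφ, -, -, a, -, -, -, -, ha⟩ :=
    Chebotarev.exists_isFrobeniusAt_pow L σ S
  exact ⟨ℓ, hℓ, hS, A, hA, φ, hφ, a, ha⟩

private lemma pow_sub_one_sq {S : Type*} [Ring S] {f : S} (h : (f - 1) * (f - 1) = 0) :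
    ∀ k : ℕ, f ^ k - 1 = k • (f - 1)
  | 0 => by simp
  | k + 1 => by
    have h1 := pow_sub_one_sq h k
    have h2 : f ^ (k + 1) - 1 = (f ^ k - 1) * (f - 1) + (f ^ k - 1) + (f - 1) := by
      rw [pow_succ]; noncomm_ring
    rw [h2, h1, smul_mul_assoc, h, smul_zero, zero_add, succ_nsmul]

variable (W : WeierstrassCurve ℤ) (p : ℕ) [Fact p.Prime]

/-- Main lemma: irreducibility gives a prime `ℓ ≡ 1 (mod p M)` with `a_ℓ ≢ 2 (mod p)`. -/
theorem exists_prime_one_mod_trace_ne_two (hΔ : W.Δ ≠ 0) (hp2 : p ≠ 2)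
    (hfrob : FrobeniusTraceDet W p) (hirr : W.ModRepIsIrreducible p) (M : ℕ) (hM : 0 < M) :
    ∃ ℓ : ℕ, ℓ.Prime ∧ ¬ ℓ ∣ M * p ∧ W.IsGoodPrimeFor ℓ ∧ (ℓ : ZMod (p * M)) = 1 ∧
      (W.apOfModel ℓ : ZMod p) ≠ 2 := by
  have hp : p.Prime := Fact.out
  by_contra hcon
  have hall : ∀ ℓ : ℕ, ℓ.Prime → ¬ ℓ ∣ M * p → W.IsGoodPrimeFor ℓ → (ℓ : ZMod (p * M)) = 1 →
      (W.apOfModel ℓ : ZMod p) = 2 := fun ℓ a b c d => by
    by_contra hne
    exact hcon ⟨ℓ, a, b, c, d, hne⟩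
  have hΔQ := ECTorsion.Δ_map_intCast_ne_zero W hΔ
  set r := modRep W p
  have hV := ECTorsion.finrank_torsionBy_rat (W.map (Int.castRingHom ℚ)) hΔQ p
  have : Module.Finite (ZMod p) (Submodule.torsionBy ℤ
      ((W.map (Int.castRingHom ℚ))⁄Qbar).Point p) := Module.finite_of_finrank_eq_succ hV
  have hr : GaloisFactorsThroughFiniteLevel r :=
    ECTorsion.galoisFactorsThroughFiniteLevel _ hΔQ hp.ne_zero
  obtain ⟨L, hL, hfac⟩ := id hr
  -- the cyclotomic level
  set m := p * M with hm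
  have hm0 : m ≠ 0 := Nat.mul_ne_zero hp.ne_zero hM.ne'
  have : NeZero m := ⟨hm0⟩
  obtain ⟨ζ, hζ⟩ : ∃ ζ : Qbar, IsPrimitiveRoot ζ m :=
    HasEnoughRootsOfUnity.exists_primitiveRoot Qbar m
  let H : Subgroup Γℚ :=
    { carrier := {σ | σ ζ = ζ}
      mul_mem' := fun {a b} ha hb => by
        show (a * b) ζ = ζ
        rw [AlgEquiv.mul_apply, show b ζ = ζ from hb, show a ζ = ζ from ha]
      one_mem' := rfl
      inv_mem' := fun {a} ha => by
        show a⁻¹ ζ = ζ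
        exact a.injective ((a.apply_symm_apply ζ).trans (show a ζ = ζ from ha).symm) }
  have hexp : ∀ σ : Γℚ, ∃ i, σ ζ = ζ ^ i := fun σ => by
    obtain ⟨i, -, hi⟩ := hζ.eq_pow_of_pow_eq_one
      (ξ := σ ζ) (by rw [← map_pow, hζ.pow_eq_one, map_one])
    exact ⟨i, hi.symm⟩
  have hHn : H.Normal := ⟨fun h hh g => by
    obtain ⟨i, hi⟩ := hexp g⁻¹
    show (g * h * g⁻¹) ζ = ζ
    rw [AlgEquiv.mul_apply, AlgEquiv.mul_apply, hi, map_pow, show h ζ = ζ from hh, ← hi]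
    exact g.apply_symm_apply ζ⟩
  -- avoided primes
  set S : Finset ℕ := m.primeFactors ∪ W.Δ.natAbs.primeFactors with hS
  have hSgood : ∀ ℓ : ℕ, ℓ.Prime → ℓ ∉ S → ¬ ℓ ∣ m ∧ W.IsGoodPrimeFor ℓ := fun ℓ hℓ h => by
    rw [hS, Finset.mem_union, Nat.mem_primeFactors, Nat.mem_primeFactors, not_or] at h
    exact ⟨fun hd => h.1 ⟨hℓ, hd, hm0⟩,
      fun hd => h.2 ⟨hℓ, Int.natCast_dvd.mp hd, Int.natAbs_ne_zero.mpr hΔ⟩⟩
  have hfd : FiniteDimensional ℚ (IntermediateField.adjoin ℚ ({ζ} : Set Qbar)) :=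
    IntermediateField.adjoin.finiteDimensional (hζ.isIntegral (NeZero.pos m)).tower_top
  have : FiniteDimensional ℚ ↑(L ⊔ IntermediateField.adjoin ℚ ({ζ} : Set Qbar)) :=
    ConductorLevel.exists_common_level hL hfd
  have huni : ∀ σ ∈ H, (r σ - 1) * (r σ - 1) = 0 := fun σ hσ => by
    obtain ⟨ℓ, hℓ, hℓS, -, A, hA, φ, hφ, -, k, a, -, -, -, hk, ha⟩ :=
      Chebotarev.exists_isFrobeniusAt_pow (L ⊔ IntermediateField.adjoin ℚ {ζ}) σ S
    obtain ⟨hℓm, hgood⟩ := hSgood ℓ hℓ hℓS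
    have hζmem : ζ ∈ L ⊔ IntermediateField.adjoin ℚ ({ζ} : Set Qbar) :=
      le_sup_right (a := L) (IntermediateField.mem_adjoin_simple_self ℚ ζ)
    have h1 : φ ζ = ζ := by
      rw [hk ζ hζmem]
      exact Subgroup.pow_mem H hσ k
    have h2 : φ ζ = ζ ^ ℓ := by
      simpa using HeckeDatum.frobenius_pow_apply_eq A hA
        ((hℓ.coprime_iff_not_dvd.mpr hℓm).symm) hm0 hφ 1 hζ.pow_eq_one
    have hℓ1 : (ℓ : ZMod m) = 1 := by
      have h3 : ζ ^ ℓ = ζ ^ 1 := by rw [pow_one, ← h2, h1]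
      have h4 := (hζ.isOfFinOrder hm0).pow_eq_pow_iff_modEq.mp h3
      rw [← hζ.eq_orderOf] at h4
      simpa using (ZMod.natCast_eq_natCast_iff _ _ _).mpr h4
    have hℓp : ℓ ≠ p := fun h => hℓm (h ▸ dvd_mul_right p M)
    obtain ⟨ht, hd⟩ := hfrob ℓ hℓ hℓp hgood A hA φ hφ
    rw [hall ℓ hℓ (by rwa [mul_comm, ← hm]) hgood hℓ1] at ht
    have hℓp1 : (ℓ : ZMod p) = 1 := by
      simpa [map_natCast] using congrArg (ZMod.castHom (dvd_mul_right p M) (ZMod p)) hℓ1
    rw [hℓp1] at hd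
    have hch := LinearMap.aeval_self_charpoly (r φ)
    rw [ConductorLevel.charpoly_eq_of_finrank_two hV, ht, hd] at hch
    have hsq : (r φ - 1) * (r φ - 1) = 0 := by
      rw [← hch]
      simp only [map_add, map_sub, map_mul, map_one, map_ofNat, aeval_X, sq]
      noncomm_ring
    rw [ConductorLevel.map_eq_of_eqOn hfac
      (fun x hx => ha x (le_sup_left (b := IntermediateField.adjoin ℚ {ζ}) hx)), map_pow,
      pow_sub_one_sq hsq, smul_mul_assoc, mul_smul_comm, hsq, smul_zero, smul_zero]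
  have hirr' : ∀ U : Submodule (ZMod p) _, (∀ g, ∀ x ∈ U, r g x ∈ U) → U = ⊥ ∨ U = ⊤ :=
    fun U hU => hirr.2 U fun σ x hx => hU σ x hx
  have htriv := map_eq_one_of_normal_unipotent hV r hirr' H huni
  -- the image is commutative
  have hcomm : ∀ g h : Γℚ, r g * r h = r h * r g := fun g h => by
    obtain ⟨i, hi⟩ := hexp g
    obtain ⟨j, hj⟩ := hexp h
    have hmem : (h * g)⁻¹ * (g * h) ∈ H := by
      have e : (g * h) ζ = (h * g) ζ := by
        rw [AlgEquiv.mul_apply, AlgEquiv.mul_apply, hi, hj, map_pow, map_pow, hi, hj, ← pow_mul,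
          ← pow_mul, mul_comm]
      show ((h * g)⁻¹ * (g * h)) ζ = ζ
      rw [AlgEquiv.mul_apply, e]
      exact (h * g).symm_apply_apply ζ
    calc r g * r h = r ((h * g) * ((h * g)⁻¹ * (g * h))) := by
          rw [mul_inv_cancel_left, map_mul]
      _ = r h * r g := by rw [map_mul, htriv _ hmem, mul_one, map_mul]
  -- complex conjugation
  have hdet : LinearMap.det (r complexConjugation) = -1 := by
    refine ConductorLevel.det_involution_eq_neg_one frobeniusPowDense hV hr S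
      (fun ℓ => W.apOfModel ℓ) (fun ℓ hℓ h hd => (hSgood ℓ hℓ h).1 (hd.trans (dvd_mul_right p M)))
      (fun ℓ hℓ h A hA φ hφ => ?_) complexConjugation_mul_self Oddness.complexConjugation_ne_one
    obtain ⟨hℓm, hgood⟩ := hSgood ℓ hℓ h
    obtain ⟨ht, hd⟩ :=
      hfrob ℓ hℓ (fun e => hℓm (e ▸ dvd_mul_right p M)) hgood A hA φ hφ
    rw [ConductorLevel.charpoly_eq_of_finrank_two hV, ht, hd]
  refine false_of_central_involution hV ?_ r hirr' complexConjugation_mul_self hdet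
    (fun g => hcomm g _)
  rw [show (2 : ZMod p) = ((2 : ℕ) : ZMod p) by norm_num, Ne, ZMod.natCast_eq_zero_iff]
  exact fun h => hp2 ((Nat.prime_dvd_prime_iff_eq hp Nat.prime_two).1 h)

/-- The same with irreducibility of any curve of which `W` is an integral model. -/
theorem exists_prime_one_mod_trace_ne_two_of_model {E : WeierstrassCurve ℚ} [E.IsElliptic]
    (hW : W.IsIntegralModelOf E) (hp2 : p ≠ 2) (hfrob : FrobeniusTraceDet W p)
    (hirr : GaloisRepIsIrreducible (K := Qbar) ℚ E p) (M : ℕ) (hM : 0 < M) :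
    ∃ ℓ : ℕ, ℓ.Prime ∧ ¬ ℓ ∣ M * p ∧ W.IsGoodPrimeFor ℓ ∧ (ℓ : ZMod (p * M)) = 1 ∧
      (W.apOfModel ℓ : ZMod p) ≠ 2 := by
  obtain ⟨C, hC⟩ := hW
  have hΔ : W.Δ ≠ 0 := by
    intro h
    have h1 := congrArg WeierstrassCurve.Δ hC
    rw [variableChange_Δ, map_Δ, h, _root_.map_zero] at h1
    exact (E.isUnit_Δ.ne_zero) ((C.u⁻¹.isUnit.pow 12).mul_right_eq_zero.1 h1)
  refine exists_prime_one_mod_trace_ne_two W p hΔ hp2 hfrob ?_ M hM
  unfold ModRepIsIrreducible
  rw [← hC]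
  exact VariableChangePoints.galoisRepIsIrreducible_variableChange C hirr

end Fermat.Agent.LevelRaisingPrime

end
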