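import Fermat.Agent.LevelRaisingPrime.Main
import Fermat.Agent.TWHyp.Curve

/-!
# The auxiliary prime for an irreducible `E[p]`

Frobenius at a good prime `ℓ ≠ p` has trace `a_ℓ` and determinant `ℓ` on `E[p]`.  Hence for
irreducible `E[p]` there is a good prime `ℓ ≡ 1 (mod p M)` with `a_ℓ ≢ 2 (mod p)`.
-/

set_option autoImplicit false

noncomputable section

open WeierstrassCurve WeierstrassCurve.Affine WeierstrassCurve.Affine.Point
open scoped WeierstrassCurve.Affine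

namespace Fermat.Agent.LevelRaisingPrime

/-- Frobenius at good primes other than `p` has trace `a_ℓ` and determinant `ℓ` on `E[p]`. -/
theorem frobeniusTraceDet (W : WeierstrassCurve ℤ) {p : ℕ} (hp : p.Prime) :
    FrobeniusTraceDet W p := fun _ hℓ hne hgood _ hA _ hφ =>
  TWHyp.frobenius_trace_det W hℓ (fun h => hne ((Nat.prime_dvd_prime_iff_eq hℓ hp).1 h)) hgood
    hA hφ

/-- A good prime `ℓ ≡ 1 (mod p M)` with `a_ℓ ≢ 2 (mod p)`, for an irreducible `E[p]`. -/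
theorem exists_auxiliary_prime (W : WeierstrassCurve ℤ) (p : ℕ) [Fact p.Prime]
    {E : WeierstrassCurve ℚ} [E.IsElliptic] (hW : W.IsIntegralModelOf E) (hp2 : p ≠ 2)
    (hirr : GaloisRepIsIrreducible (K := AlgebraicClosure ℚ) ℚ E p) (M : ℕ) (hM : 0 < M) :
    ∃ ℓ : ℕ, ℓ.Prime ∧ ¬ ℓ ∣ M * p ∧ W.IsGoodPrimeFor ℓ ∧ (ℓ : ZMod (p * M)) = 1 ∧
      (W.apOfModel ℓ : ZMod p) ≠ 2 :=
  exists_prime_one_mod_trace_ne_two_of_model W p hW hp2 (frobeniusTraceDet W Fact.out) hirr M hM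

end Fermat.Agent.LevelRaisingPrime

end
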