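import Mathlib.LinearAlgebra.Dimension.Finrank
import Mathlib.LinearAlgebra.FiniteDimensional.Lemmas
import Mathlib.GroupTheory.Subgroup.Simple
import Mathlib.Tactic

/-!
# Irreducible plane representations

A normal subgroup of unipotents acts trivially, and no involution of determinant `-1` commutes
with the image.
-/

set_option autoImplicit false

namespace Fermat.Agent.LevelRaisingPrime

variable {F : Type*} [Field F] {V : Type*} [AddCommGroup V] [Module F V] [Module.Finite F V]
  {G : Type*} [Group G]

/-- If `f` and `g ∘ f` are unipotent of exponent two, then so does `g` fix `(f - 1) v`. -/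
lemma apply_eq_self_of_unipotent (hV : Module.finrank F V = 2) {f g : Module.End F V}
    (hf : (f - 1) * (f - 1) = 0) (hg : (g - 1) * (g - 1) = 0)
    (hgf : (g * f - 1) * (g * f - 1) = 0) (v : V) :
    g ((f - 1) v) = (f - 1) v := by
  set N := f - 1 with hN
  set N' := g - 1 with hN'
  set u := N v with hu
  rcases eq_or_ne u 0 with h0 | h0
  · rw [h0, map_zero]
  have hNu : N u = 0 := by
    rw [hu, ← Module.End.mul_apply, hf, LinearMap.zero_apply]
  have hker : LinearMap.ker N = F ∙ u := by
    symm
    refine Submodule.eq_of_le_of_finrank_le (by simpa [Submodule.span_singleton_le_iff_mem]) ?_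
    rw [finrank_span_singleton h0]
    have h1 := LinearMap.finrank_range_add_finrank_ker N
    have h2 : 1 ≤ Module.finrank F (LinearMap.range N) :=
      Submodule.one_le_finrank_iff.2 fun h => h0 (by
        rw [hu]; exact LinearMap.congr_fun (LinearMap.range_eq_bot.1 h) v)
    omega
  have hN'N' : N' (N' u) = 0 := by rw [← Module.End.mul_apply, hg, LinearMap.zero_apply]
  obtain ⟨c, hc⟩ : ∃ c : F, c • u = N (N' u) := by
    refine Submodule.mem_span_singleton.1 ?_
    rw [← hker, LinearMap.mem_ker, ← Module.End.mul_apply, hf, LinearMap.zero_apply]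
  have e : g * f - 1 = N + N' + N' * N := by rw [hN, hN']; noncomm_ring
  have h := LinearMap.congr_fun hgf u
  rw [e] at h
  simp only [Module.End.mul_apply, LinearMap.add_apply, LinearMap.zero_apply, hNu, map_zero,
    add_zero, zero_add, hN'N', ← hc, map_smul] at h
  have h1 : c • g u = 0 := by
    rw [show g u = u + N' u by rw [hN']; simp, smul_add]
    exact h
  have hgu : g u ≠ 0 := by
    intro hg0
    have h2 : N' u = -u := by rw [hN']; simp [hg0]
    rw [h2, map_neg, h2, neg_neg] at hN'N'
    exact h0 hN'N'
  have hc0 : c = 0 := (smul_eq_zero.1 h1).resolve_right hgu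
  rw [hc0, zero_smul] at hc
  have hmem : N' u ∈ F ∙ u := hker ▸ LinearMap.mem_ker.2 hc.symm
  obtain ⟨a, ha⟩ := Submodule.mem_span_singleton.1 hmem
  rw [← ha, map_smul, ← ha, smul_smul, smul_eq_zero, mul_self_eq_zero] at hN'N'
  have ha0 : a = 0 := hN'N'.resolve_right h0
  rw [ha0, zero_smul] at ha
  rw [hN', LinearMap.sub_apply, Module.End.one_apply] at ha
  exact sub_eq_zero.1 ha.symm

/-- A normal subgroup of unipotents in an irreducible plane representation acts trivially. -/
theorem map_eq_one_of_normal_unipotent (hV : Module.finrank F V = 2) (r : G →* Module.End F V)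
    (hirr : ∀ U : Submodule F V, (∀ g, ∀ x ∈ U, r g x ∈ U) → U = ⊥ ∨ U = ⊤) (H : Subgroup G)
    [H.Normal] (huni : ∀ h ∈ H, (r h - 1) * (r h - 1) = 0) : ∀ h ∈ H, r h = 1 := by
  let U : Submodule F V :=
    { carrier := {v | ∀ h ∈ H, r h v = v}
      add_mem' := fun ha hb h hh => by rw [map_add, ha h hh, hb h hh]
      zero_mem' := fun h _ => map_zero _
      smul_mem' := fun c v hv h hh => by rw [map_smul, hv h hh] }
  rcases hirr U (fun g x hx h hh => by
    have hmem : g⁻¹ * h * g ∈ H := by
      simpa using Subgroup.Normal.conj_mem inferInstance h hh g⁻¹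
    have := congrArg (r g) (hx _ hmem)
    rwa [← Module.End.mul_apply, ← map_mul, ← mul_assoc, ← mul_assoc, mul_inv_cancel, one_mul,
      map_mul, Module.End.mul_apply] at this) with h | h
  · intro f hf
    refine LinearMap.ext fun v => ?_
    have hmem : (r f - 1) v ∈ U := fun k hk =>
      apply_eq_self_of_unipotent hV (huni f hf) (huni k hk)
        (by rw [← map_mul]; exact huni _ (H.mul_mem hk hf)) v
    rw [h, Submodule.mem_bot, LinearMap.sub_apply, sub_eq_zero] at hmem
    exact hmem
  · intro f hf
    refine LinearMap.ext fun v => ?_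
    exact (show v ∈ U by rw [h]; trivial) f hf

/-- An irreducible plane representation has no involution of determinant `-1` commuting with the
image. -/
theorem false_of_central_involution (hV : Module.finrank F V = 2) (h2 : (2 : F) ≠ 0)
    (r : G →* Module.End F V)
    (hirr : ∀ U : Submodule F V, (∀ g, ∀ x ∈ U, r g x ∈ U) → U = ⊥ ∨ U = ⊤) {c : G}
    (hcc : c * c = 1) (hdet : LinearMap.det (r c) = -1)
    (hcomm : ∀ g, r g * r c = r c * r g) : False := by
  have hsq : r c * r c = 1 := by rw [← map_mul, hcc, map_one]
  rcases hirr (LinearMap.ker (r c - 1)) (fun g x hx => by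
    rw [LinearMap.mem_ker, LinearMap.sub_apply, Module.End.one_apply, sub_eq_zero] at hx ⊢
    rw [← Module.End.mul_apply, ← hcomm, Module.End.mul_apply, hx]) with h | h
  · have hc : r c = (-1 : F) • 1 := by
      refine LinearMap.ext fun v => ?_
      have hv : r c v + v ∈ LinearMap.ker (r c - 1) := by
        rw [LinearMap.mem_ker, LinearMap.sub_apply, Module.End.one_apply, map_add,
          ← Module.End.mul_apply, hsq, Module.End.one_apply]
        abel
      rw [h, Submodule.mem_bot] at hv
      simp [eq_neg_of_add_eq_zero_left hv]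
    rw [hc, LinearMap.det_smul, hV, map_one, mul_one, neg_one_sq] at hdet
    exact h2 (by linear_combination hdet)
  · have hc : r c = 1 := sub_eq_zero.1 (LinearMap.ker_eq_top.1 h)
    rw [hc, map_one] at hdet
    exact h2 (by linear_combination hdet)

end Fermat.Agent.LevelRaisingPrime
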